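/-
S55 engine E1 — block ALG, part 3: DEFINITIONS for ALG9 (edge map), ALG10 (transitions),
ALG11 (local injectivity).   Sub-architect: helper895 (assigned by helper55, note #4405).
Blueprint: coord/S55-E1.md §3.   NO sorry.   Namespace `Fermat.Agent.S55.E1`.

CHANGE OF GROUP.  Data: `π : G' →* G`, `N : Rep ℤ G`, `N' : Rep ℤ G'`,
`ν : N' ⟶ Rep.res π N` (in the tower: the identity), `X : Rep ℤ G`, `X' : Rep ℤ G'`,
`ι : Rep.res π X ⟶ X'` (SEMILINEAR form: `ι (π(g') x) = g' ι(x)`).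

* `trP π ν : stdP N' ⟶ Rep.res π (stdP N)`      `ρ : g' e_{n'} ↦ π(g') e_{ν n'}`;
* `trR π ν : stdR N' ⟶ Rep.res π (stdR N)`      restriction of `ρ` to `R'` (`trR_stdι`);
* `trA π ν ι : homA N X →+ homA N' X'`,  `trB π ν ι : homB N X →+ homB N' X'`   `f ↦ ι ∘ f ∘ ρ`;
  `trA_resBA` (tr commutes with `res : Bc → A`), `Extends.tr`;
* `trIhom π a ι : Rep.res π (Hom(A, X)) ⟶ Hom(A', X')`   `φ ↦ ι ∘ φ ∘ a`  (generic `k`);
* `trE2 π ν ι : E2 N X →+ E2 N' X'`              on `𝔈² = H¹(G, Hom_ℤ(R, X))`;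
* `infCoeff π ι n : Hⁿ(G, X) →+ Hⁿ(G', X')`      `inf_ι = ι_* ∘ (inflation along π)`.

EDGE MAP.  `edgeB N X = 𝔹 = im(Hom_ℤ(P, X) → Hom_ℤ(R, X))` (a `G`-module),
`edgeSC N X : 0 → Hom_ℤ(N, X) → Hom_ℤ(P, X) → 𝔹 → 0` (`edgeSC_shortExact`),
`edgeδ N X : H¹(G, 𝔹) → H²(G, Hom_ℤ(N, X))` (bijective: ALG9),
`edgeIncl N X : H¹(G, 𝔹) → 𝔈²(X)`;  `IsEdge x y : Prop`  (`y = e(x)`),
`trEdgeB π ν ι : Rep.res π (edgeB N X) ⟶ edgeB N' X'`.
-/
import Fermat.Agent.S55.E1.Defs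
import Fermat.Agent.S55.T.NakHomH719

set_option autoImplicit false

open CategoryTheory CategoryTheory.Limits

namespace Fermat.Agent.S55.E1

noncomputable section

variable {G G' : Type} [Group G] [Group G'] (π : G' →* G)
variable {N : Rep.{0} ℤ G} {N' : Rep.{0} ℤ G'} (ν : N' ⟶ Rep.res π N)

/-- `ρ : P' → P`, `g' • e_{n'} ↦ π(g') • e_{ν n'}`. -/
def trP : stdP N' ⟶ Rep.res π (stdP N) :=
  Rep.freeLift ℤ G' (Rep.res π (stdP N)) (fun n' : N'.V => stdE N (ν.hom n'))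

lemma trP_stdE (n' : N'.V) : (trP π ν).hom (stdE N' n') = stdE N (ν.hom n') := by
  simp [trP, stdE]

lemma resFunctor_map_hom_apply {A B : Rep.{0} ℤ G} (f : A ⟶ B) (x : A.V) :
    ((Rep.resFunctor π).map f).hom x = f.hom x := rfl

lemma trP_stdε : trP π ν ≫ (Rep.resFunctor π).map (stdε N) = stdε N' ≫ ν := by
  apply Rep.free_ext
  intro n'
  have h1 := trP_stdE π ν n'
  have h2 := stdε_stdE N' n'
  have h3 := stdε_stdE N (ν.hom n')
  unfold stdE at h1 h2 h3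
  rw [Rep.comp_apply, Rep.comp_apply]
  erw [h1, h2]
  exact h3

lemma trP_stdε_apply (x : (stdP N').V) :
    (stdε N).hom ((trP π ν).hom x) = ν.hom ((stdε N').hom x) := by
  have := congrArg (fun f => f.hom x) (trP_stdε π ν)
  exact this

/-- `ρ|_{R'} : R' → R`. -/
def trR : stdR N' ⟶ Rep.res π (stdR N) :=
  kernel.lift ((Rep.resFunctor π).map (stdε N)) (stdι N' ≫ trP π ν) (by
    rw [Category.assoc, trP_stdε, ← Category.assoc]
    have : stdι N' ≫ stdε N' = 0 := kernel.condition _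
    rw [this, zero_comp]) ≫ (PreservesKernel.iso (Rep.resFunctor π) (stdε N)).inv

lemma trR_stdι : trR π ν ≫ (Rep.resFunctor π).map (stdι N) = stdι N' ≫ trP π ν := by
  have h := PreservesKernel.iso_inv_ι (Rep.resFunctor π) (stdε N)
  exact (Category.assoc _ _ _).trans ((congrArg (fun t => _ ≫ t) h).trans (kernel.lift_ι _ _ _))

lemma trR_stdι_apply (r : (stdR N').V) :
    (stdι N).hom ((trR π ν).hom r) = (trP π ν).hom ((stdι N').hom r) := by
  have := congrArg (fun f => f.hom r) (trR_stdι π ν)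
  exact this

end

end Fermat.Agent.S55.E1

namespace Fermat.Agent.S55.E1

noncomputable section

variable {G G' : Type} [Group G] [Group G'] (π : G' →* G)
variable {N : Rep.{0} ℤ G} {N' : Rep.{0} ℤ G'} (ν : N' ⟶ Rep.res π N)
variable {X : Rep.{0} ℤ G} {X' : Rep.{0} ℤ G'} (ι : Rep.res π X ⟶ X')


/-- Pointwise extensionality for morphisms of representations. -/
lemma repHom_ext_tr {H : Type} [Group H] {A B : Rep.{0} ℤ H} {f g : A ⟶ B}
    (h : ∀ x : A.V, f.hom x = g.hom x) : f = g := by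
  apply Rep.hom_ext
  apply DFunLike.ext
  exact h

/-- `tr : A(X) → A'(X')`, `f ↦ ι ∘ f ∘ ρ`. -/
def trA : homA N X →+ homA N' X' where
  toFun f := trR π ν ≫ (Rep.resFunctor π).map f ≫ ι
  map_zero' := by
    rw [Functor.map_zero, zero_comp, comp_zero]
  map_add' f g := by
    rw [Functor.map_add, Preadditive.add_comp, Preadditive.comp_add]

/-- `tr : Bc(X) → Bc'(X')`, `h ↦ ι ∘ h ∘ ρ`. -/
def trB : homB N X →+ homB N' X' where
  toFun h := trP π ν ≫ (Rep.resFunctor π).map h ≫ ι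
  map_zero' := by
    rw [Functor.map_zero, zero_comp, comp_zero]
  map_add' f g := by
    rw [Functor.map_add, Preadditive.add_comp, Preadditive.comp_add]

lemma trA_hom_apply (f : homA N X) (r : (stdR N').V) :
    (trA π ν ι f).hom r = ι.hom (f.hom ((trR π ν).hom r)) := rfl

lemma trB_hom_apply (h : homB N X) (x : (stdP N').V) :
    (trB π ν ι h).hom x = ι.hom (h.hom ((trP π ν).hom x)) := rfl

/-- `tr` commutes with `res : Bc → A`. -/
lemma trA_resBA (h : homB N X) : trA π ν ι (resBA N X h) = resBA N' X' (trB π ν ι h) := by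
  change trR π ν ≫ (Rep.resFunctor π).map (stdι N ≫ h) ≫ ι =
    stdι N' ≫ trP π ν ≫ (Rep.resFunctor π).map h ≫ ι
  rw [Functor.map_comp, ← Category.assoc, ← Category.assoc, trR_stdι]
  simp only [Category.assoc]

/-- `tr` preserves extendability. -/
lemma Extends.tr {f : homA N X} (hf : Extends f) : Extends (trA π ν ι f) := by
  obtain ⟨h, rfl⟩ := hf
  exact ⟨trB π ν ι h, (trA_resBA π ν ι h).symm⟩

end

end Fermat.Agent.S55.E1

namespace Fermat.Agent.S55.E1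

noncomputable section

section Generic

variable {k G G' : Type} [CommRing k] [Group G] [Group G'] (π : G' →* G)
variable {A X : Rep.{0} k G} {A' X' : Rep.{0} k G'}

/-- The linear map `φ ↦ ι ∘ φ ∘ a` on `Hom_k(A, X) → Hom_k(A', X')`. -/
def trHomLin (a : A' ⟶ Rep.res π A) (ι : Rep.res π X ⟶ X') :
    (A.V →ₗ[k] X.V) →ₗ[k] (A'.V →ₗ[k] X'.V) where
  toFun φ := ι.hom.toLinearMap ∘ₗ φ ∘ₗ a.hom.toLinearMap
  map_add' φ ψ := by
    ext x
    simp
  map_smul' c φ := by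
    ext x
    simp

lemma trHomLin_apply (a : A' ⟶ Rep.res π A) (ι : Rep.res π X ⟶ X') (φ : A.V →ₗ[k] X.V)
    (x : A'.V) : trHomLin π a ι φ x = ι.hom (φ (a.hom x)) := rfl

/-- `Φ : res_π Hom_k(A, X) ⟶ Hom_k(A', X')`, `φ ↦ ι ∘ φ ∘ a`, as a morphism of `G'`-modules. -/
def trIhom (a : A' ⟶ Rep.res π A) (ι : Rep.res π X ⟶ X') :
    Rep.res π ((Rep.ihom A).obj X) ⟶ (Rep.ihom A').obj X' :=
  Rep.ofHom ⟨trHomLin π a ι, fun g' => by
    refine LinearMap.ext fun (φ : A.V →ₗ[k] X.V) => LinearMap.ext fun x => ?_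
    have h1 : a.hom (A'.ρ g'⁻¹ x) = A.ρ (π g')⁻¹ (a.hom x) := by
      have := Rep.hom_comm_apply a g'⁻¹ x
      rw [this]
      change A.ρ (π g'⁻¹) _ = _
      rw [map_inv]
    have h2 : ∀ y : X.V, ι.hom (X.ρ (π g') y) = X'.ρ g' (ι.hom y) :=
      fun y => Rep.hom_comm_apply ι g' y
    change ι.hom (X.ρ (π g') (φ (A.ρ (π g')⁻¹ (a.hom x)))) =
      X'.ρ g' (ι.hom (φ (a.hom (A'.ρ g'⁻¹ x))))
    rw [h1, h2]⟩

end Generic

end

end Fermat.Agent.S55.E1

namespace Fermat.Agent.S55.E1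

noncomputable section

section GenericEdge

variable {k G : Type} [CommRing k] [Group G]

/-- Precomposition `Hom_k(B, X) ⟶ Hom_k(A, X)`, `φ ↦ φ ∘ a`, as a morphism of `G`-modules. -/
def ihomPre {A B : Rep.{0} k G} (a : A ⟶ B) (X : Rep.{0} k G) :
    (Rep.ihom B).obj X ⟶ (Rep.ihom A).obj X :=
  Rep.ofHom ⟨LinearMap.lcomp k X.V a.hom.toLinearMap, fun g => by
    refine LinearMap.ext fun (φ : B.V →ₗ[k] X.V) => LinearMap.ext fun x => ?_
    change X.ρ g (φ (B.ρ g⁻¹ (a.hom x))) = X.ρ g (φ (a.hom (A.ρ g⁻¹ x)))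
    rw [Rep.hom_comm_apply]⟩

lemma ihomPre_hom_apply {A B : Rep.{0} k G} (a : A ⟶ B) (X : Rep.{0} k G)
    (φ : B.V →ₗ[k] X.V) (x : A.V) :
    (show A.V →ₗ[k] X.V from (ihomPre a X).hom φ) x = φ (a.hom x) := rfl

/-- The image of `Hom_k(B, X) → Hom_k(A, X)` as a submodule. -/
def ihomImage {A B : Rep.{0} k G} (a : A ⟶ B) (X : Rep.{0} k G) :
    Submodule k ((Rep.ihom A).obj X).V :=
  LinearMap.range (ihomPre a X).hom.toLinearMap

lemma ihomImage_stable {A B : Rep.{0} k G} (a : A ⟶ B) (X : Rep.{0} k G) (g : G) :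
    ihomImage a X ≤ (ihomImage a X).comap (((Rep.ihom A).obj X).ρ g) := by
  rintro _ ⟨ψ, rfl⟩
  exact ⟨((Rep.ihom B).obj X).ρ g ψ, (Rep.hom_comm_apply (ihomPre a X) g ψ)⟩

/-- `𝔹 = im(Hom_k(B, X) → Hom_k(A, X))` as a `G`-module. -/
def ihomImageRep {A B : Rep.{0} k G} (a : A ⟶ B) (X : Rep.{0} k G) : Rep.{0} k G :=
  Rep.subrepresentation ((Rep.ihom A).obj X) (ihomImage a X) (ihomImage_stable a X)

/-- The inclusion `𝔹 ⟶ Hom_k(A, X)`. -/
def ihomImageIncl {A B : Rep.{0} k G} (a : A ⟶ B) (X : Rep.{0} k G) :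
    ihomImageRep a X ⟶ (Rep.ihom A).obj X :=
  Rep.subtype ((Rep.ihom A).obj X) (ihomImage a X) (ihomImage_stable a X)

/-- The projection `Hom_k(B, X) ⟶ 𝔹`. -/
def ihomImageProj {A B : Rep.{0} k G} (a : A ⟶ B) (X : Rep.{0} k G) :
    (Rep.ihom B).obj X ⟶ ihomImageRep a X :=
  Rep.ofHom ⟨(ihomPre a X).hom.toLinearMap.rangeRestrict, fun g => by
    refine LinearMap.ext fun φ => Subtype.ext ?_
    exact Rep.hom_comm_apply (ihomPre a X) g φ⟩

end GenericEdge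

end

end Fermat.Agent.S55.E1

namespace Fermat.Agent.S55.E1

noncomputable section

section GenericEdge2

variable {k G : Type} [CommRing k] [Group G]

/-- For a short complex `A → B → C` the short complex
`Hom_k(C, X) → Hom_k(B, X) → im(Hom_k(B, X) → Hom_k(A, X))`. -/
def ihomImageSC (S : ShortComplex (Rep.{0} k G)) (X : Rep.{0} k G) :
    ShortComplex (Rep.{0} k G) :=
  ShortComplex.mk (ihomPre S.g X) (ihomImageProj S.f X) (by
    apply Rep.hom_ext
    apply DFunLike.ext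
    intro (φ : S.X₃.V →ₗ[k] X.V)
    apply Subtype.ext
    apply LinearMap.ext
    intro x
    change φ (S.g.hom (S.f.hom x)) = 0
    have h : S.f ≫ S.g = 0 := S.zero
    have h' : S.g.hom (S.f.hom x) = 0 := by
      have := congrArg (fun t => t.hom x) h
      exact this
    rw [h', map_zero])

end GenericEdge2

end

end Fermat.Agent.S55.E1

namespace Fermat.Agent.S55.E1

noncomputable section

section GenericEdge3

variable {k G : Type} [CommRing k] [Group G]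

open Fermat.Agent.S55.T.H719 in
theorem ihomImageSC_shortExact (S : ShortComplex (Rep.{0} k G)) (hS : S.ShortExact)
    (X : Rep.{0} k G) : (ihomImageSC S X).ShortExact := by
  obtain ⟨hinj, hsurj, hex⟩ := (rep_shortExact_iff S).1 hS
  rw [rep_shortExact_iff]
  refine ⟨?_, ?_, ?_⟩
  · intro (φ : S.X₃.V →ₗ[k] X.V) (ψ : S.X₃.V →ₗ[k] X.V) h
    apply LinearMap.ext
    intro c
    obtain ⟨b, rfl⟩ := hsurj c
    exact LinearMap.congr_fun h b
  · rintro ⟨_, ⟨ψ, rfl⟩⟩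
    exact ⟨ψ, rfl⟩
  · intro (ψ : S.X₂.V →ₗ[k] X.V) hψ
    have hψ' : ∀ a : S.X₁.V, ψ (S.f.hom a) = 0 := by
      intro a
      have := congrArg (fun t : (ihomImageRep S.f X).V => (show S.X₁.V →ₗ[k] X.V from t.1) a) hψ
      exact this
    have hker : LinearMap.ker S.g.hom.toLinearMap ≤ LinearMap.ker ψ := by
      intro b hb
      obtain ⟨a, rfl⟩ := hex b hb
      exact hψ' a
    let e := S.g.hom.toLinearMap.quotKerEquivOfSurjective hsurj
    refine ⟨((LinearMap.ker S.g.hom.toLinearMap).liftQ ψ hker) ∘ₗ e.symm.toLinearMap, ?_⟩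
    apply LinearMap.ext
    intro b
    change ((LinearMap.ker S.g.hom.toLinearMap).liftQ ψ hker) (e.symm (S.g.hom b)) = ψ b
    have : e.symm (S.g.hom b) = Submodule.Quotient.mk b := by
      rw [LinearEquiv.symm_apply_eq]
      rfl
    rw [this, Submodule.liftQ_apply]

end GenericEdge3

end

end Fermat.Agent.S55.E1

namespace Fermat.Agent.S55.E1

noncomputable section

/-! ## Transitions on `𝔈²` and on cohomology -/

section TrE2

variable {G G' : Type} [Group G] [Group G'] (π : G' →* G)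
variable {N : Rep.{0} ℤ G} {N' : Rep.{0} ℤ G'} (ν : N' ⟶ Rep.res π N)
variable {X : Rep.{0} ℤ G} {X' : Rep.{0} ℤ G'} (ι : Rep.res π X ⟶ X')

/-- `inf_ι = ι_* ∘ (inflation along π) : Hⁿ(G, X) → Hⁿ(G', X')`. -/
def infCoeff (n : ℕ) : groupCohomology X n →ₗ[ℤ] groupCohomology X' n :=
  (groupCohomology.map π ι n).hom

/-- `tr : 𝔈²_G(X) → 𝔈²_{G'}(X')`, on cocycles `tr(c)(g') = ι ∘ c(π g') ∘ ρ`. -/
def trE2 : E2 N X →ₗ[ℤ] E2 N' X' :=
  (groupCohomology.map π (trIhom π (trR π ν) ι) 1).hom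

end TrE2

/-! ## The edge map -/

section Edge

variable {G : Type} [Group G]

/-- `𝔹 = im(Hom_ℤ(P, X) → Hom_ℤ(R, X))` as a `G`-module. -/
def edgeB (N X : Rep.{0} ℤ G) : Rep.{0} ℤ G := ihomImageRep (stdι N) X

/-- The short complex `0 → Hom_ℤ(N, X) → Hom_ℤ(P, X) → 𝔹 → 0`. -/
def edgeSC (N X : Rep.{0} ℤ G) : ShortComplex (Rep.{0} ℤ G) := ihomImageSC (stdSC N) X

theorem edgeSC_shortExact (N X : Rep.{0} ℤ G) : (edgeSC N X).ShortExact :=
  ihomImageSC_shortExact (stdSC N) (stdSC_shortExact N) X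

/-- The connecting map `δ' : H¹(G, 𝔹) → H²(G, Hom_ℤ(N, X))` (bijective by ALG9). -/
def edgeδ (N X : Rep.{0} ℤ G) :
    groupCohomology (edgeB N X) 1 →ₗ[ℤ] groupCohomology ((Rep.ihom N).obj X) 2 :=
  (groupCohomology.δ (edgeSC_shortExact N X) 1 2 rfl).hom

/-- `incl_* : H¹(G, 𝔹) → 𝔈²(X) = H¹(G, Hom_ℤ(R, X))`. -/
def edgeIncl (N X : Rep.{0} ℤ G) : groupCohomology (edgeB N X) 1 →ₗ[ℤ] E2 N X :=
  (T.coeffMap (ihomImageIncl (stdι N) X) 1).hom

/-- `y = e(x)`: the edge map `e = incl_* ∘ δ'⁻¹ : H²(G, Hom_ℤ(N, X)) → 𝔈²(X)` as a relation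
(functional and total by ALG9). -/
def IsEdge {N X : Rep.{0} ℤ G} (x : groupCohomology ((Rep.ihom N).obj X) 2) (y : E2 N X) : Prop :=
  ∃ b : groupCohomology (edgeB N X) 1, edgeδ N X b = x ∧ edgeIncl N X b = y

end Edge

section TrEdgeGeneric

variable {k G G' : Type} [CommRing k] [Group G] [Group G'] (π : G' →* G)
variable {A B X : Rep.{0} k G} {A' B' X' : Rep.{0} k G'}
variable (a : A ⟶ B) (a' : A' ⟶ B') (tA : A' ⟶ Rep.res π A) (tB : B' ⟶ Rep.res π B)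
variable (ι : Rep.res π X ⟶ X')

lemma trIhom_mem_ihomImage (hsq : ∀ x : A'.V, a.hom (tA.hom x) = tB.hom (a'.hom x))
    (φ : ((Rep.ihom A).obj X).V) (hφ : φ ∈ ihomImage a X) :
    (trIhom π tA ι).hom φ ∈ ihomImage a' X' := by
  obtain ⟨ψ, rfl⟩ := hφ
  refine ⟨(trIhom π tB ι).hom ψ, ?_⟩
  refine LinearMap.ext fun r => ?_
  change ι.hom ((show B.V →ₗ[k] X.V from ψ) (tB.hom (a'.hom r))) =
    ι.hom ((show B.V →ₗ[k] X.V from ψ) (a.hom (tA.hom r)))
  rw [hsq]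

/-- `tr : res_π im(Hom(B, X) → Hom(A, X)) ⟶ im(Hom(B', X') → Hom(A', X'))`, the restriction of
`φ ↦ ι ∘ φ ∘ tA`. -/
def trImage (hsq : ∀ x : A'.V, a.hom (tA.hom x) = tB.hom (a'.hom x)) :
    Rep.res π (ihomImageRep a X) ⟶ ihomImageRep a' X' :=
  Rep.ofHom ⟨((trIhom π tA ι).hom.toLinearMap.comp
      (ihomImage a X).subtype).codRestrict (ihomImage a' X')
      (fun φ => trIhom_mem_ihomImage π a a' tA tB ι hsq φ.1 φ.2), fun g' => by
    refine LinearMap.ext fun φ => Subtype.ext ?_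
    exact Rep.hom_comm_apply (trIhom π tA ι) g' φ.1⟩

end TrEdgeGeneric

section TrEdge

variable {G G' : Type} [Group G] [Group G'] (π : G' →* G)
variable {N : Rep.{0} ℤ G} {N' : Rep.{0} ℤ G'} (ν : N' ⟶ Rep.res π N)
variable {X : Rep.{0} ℤ G} {X' : Rep.{0} ℤ G'} (ι : Rep.res π X ⟶ X')

/-- `tr : res_π 𝔹 ⟶ 𝔹'`, the restriction of `φ ↦ ι ∘ φ ∘ ρ`. -/
def trEdgeB : Rep.res π (edgeB N X) ⟶ edgeB N' X' :=
  trImage π (stdι N) (stdι N') (trR π ν) (trP π ν) ι (fun r => trR_stdι_apply π ν r)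

end TrEdge

end

end Fermat.Agent.S55.E1
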